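/-
Row 37 (S43), block E0, part (a) = MAZUR STEP at level `Γ₀(M q)` (architect helper73).  DEFINITIONS.

* `HP`            : Hecke polynomials = noncommutative polynomials in symbols `T_ℓ` (`FreeAlgebra ℤ ℕ`);
* `opU N S t`     : the action of `t` on the units of `FN N` (multiplicative Hecke operators; the symbol
                    `T_ℓ` acts by `0` unless `ℓ` is a prime not dividing `N` and `S`);
* `act N S t u`   : the same in multiplicative notation;
* `KillsTors M S t` : `t` kills all the torsion of `J₀(M)` (Kummer form);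
* "`e` is congruent to a nonzero constant for the Gauss valuation" is written `S44.IsRed A e 1`
  (this does not depend on the level: `S44.X.isRed_iff`).
-/
import Fermat.Agent.S44.X.Top
import Fermat.Agent.GAL.E.Exists

set_option autoImplicit false

noncomputable section

namespace Fermat.Agent.S43.E0

open ModularCurve AlgebraicCurve Fermat.Agent.S24 Fermat.Agent.GAL

/-- Hecke polynomials. -/
abbrev HP : Type := FreeAlgebra ℤ ℕ

open Classical in
/-- The generator `T_ℓ` acting on the units of `FN N` (additive notation). -/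
def genU (N S : ℕ) [NeZero N] (ℓ : ℕ) : Module.End ℤ (Additive (FN N)ˣ) :=
  if h : ℓ.Prime ∧ ¬ ℓ ∣ N ∧ ¬ ℓ ∣ S then
    (MonoidHom.toAdditive (@E.HeckeOp.TU N ℓ ⟨h.1.ne_zero⟩ (E.heckeFam N ℓ h.1 h.2.1))).toIntLinearMap
  else 0

/-- The action of the Hecke polynomials on the units of `FN N`. -/
def opU (N S : ℕ) [NeZero N] : HP →ₐ[ℤ] Module.End ℤ (Additive (FN N)ˣ) :=
  FreeAlgebra.lift ℤ (genU N S)

/-- The action of a Hecke polynomial on units, multiplicative notation. -/
def act (N S : ℕ) [NeZero N] (t : HP) (u : (FN N)ˣ) : (FN N)ˣ :=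
  Additive.toMul (opU N S t (Additive.ofMul u))

/-- `t` kills the torsion of `J₀(M)`. -/
def KillsTors (M S : ℕ) [NeZero M] (t : HP) : Prop :=
  ∀ r : ℕ, 0 < r → ∀ u : (FN M)ˣ, u ∈ E.kum M r → act M S t u ∈ E.pows M r

end Fermat.Agent.S43.E0

end
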