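/-
Row 37 (S43), block E0, part (a) = MAZUR STEP (architect helper73).  THE NODES (named Props).

Notation: `q ∤ M` an odd prime, `A` a valuation ring of `ℚ̄` over `q`, `n = p ^ k`, `p ≥ 5`, `p ≠ q`.
`Fk A M` = function field of `X₀(M)` over the residue field of `A`, `IsRed A u ū` = Gauss reduction
(up to a constant), `IsRed A e 1` = "`e` is congruent to a nonzero constant".

* `NodeSlope` : (a1)+(a2)+(a3).  `[u]` fixed by inertia  ⟹  the reduction of `T_ℓ u / u ^ (ℓ + 1)` has a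
                divisor divisible by `n` on `X₀(M)` mod `q`.
* `NodeRED`   : (a4), level `M` only (good reduction).  `t` kills the torsion of `J₀(M)`, the reduction
                of `v` has a divisor divisible by `n`  ⟹  `t(v) ≡ const * h ^ n`.
* `NodeLift`, `NodeActAlpha`, `NodeActOne` : formal.
-/
import Fermat.Agent.S43.E0.Maz.Defs

set_option autoImplicit false

noncomputable section

namespace Fermat.Agent.S43.E0

open ModularCurve AlgebraicCurve Fermat.Agent.S24 Fermat.Agent.GAL Fermat.Agent.S44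

/-- **Node SLOPE.** -/
def NodeSlope : Prop :=
  ∀ (M q : ℕ) [NeZero M] [NeZero q], q.Prime → q ≠ 2 → ¬ q ∣ M →
    ∀ A : ValuationSubring Qb, A.LiesOverPrime q →
    ∀ p k : ℕ, p.Prime → 5 ≤ p → p ≠ q →
    ∀ (ℓ : ℕ) [NeZero ℓ], ℓ.Prime → ℓ ≠ 2 → ¬ ℓ ∣ M * q → ∀ H : E.HeckeOp (M * q) ℓ,
    ∀ u : FN (M * q), u ≠ 0 → E.IsKum (M * q) (p ^ k) u →
      (∀ σ ∈ A.inertiaSubgroupIn ℚ, ∃ h : FN (M * q), E.galF (M * q) σ u = u * h ^ (p ^ k)) →
    ∀ ubar : Fk A M, IsRed A (H.T u / u ^ (ℓ + 1)) (ubar : LaurentSeries (kA A)) →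
      ∀ w : Place (kA A) (Fk A M), ((p ^ k : ℕ) : ℤ) ∣ w.ord ubar

/-- **Node RED.** -/
def NodeRED : Prop :=
  ∀ (M q : ℕ) [NeZero M] [NeZero q], q.Prime → q ≠ 2 → ¬ q ∣ M → ∀ S : ℕ, M * q ∣ S →
    ∀ A : ValuationSubring Qb, A.LiesOverPrime q → ∀ n : ℕ, 0 < n → ¬ q ∣ n →
    ∀ t : HP, KillsTors M S t →
    ∀ (v : (FN M)ˣ) (vbar : Fk A M), IsRed A (v : FN M) (vbar : LaurentSeries (kA A)) →
      (∀ w : Place (kA A) (Fk A M), (n : ℤ) ∣ w.ord vbar) →
      ∃ h : FN M, h ≠ 0 ∧ IsRed A (((act M S t v : (FN M)ˣ) : FN M) / h ^ n) 1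

/-- **Node LIFT**: the Gauss reduction `FN M → Fk A M` is onto. -/
def NodeLift : Prop :=
  ∀ (M q : ℕ) [NeZero M], q.Prime → ¬ q ∣ M → ∀ A : ValuationSubring Qb, A.LiesOverPrime q →
    ∀ ubar : Fk A M, ubar ≠ 0 → ∃ v : FN M, IsRed A v (ubar : LaurentSeries (kA A))

/-- **Node ACT-ALPHA**: the Hecke polynomials commute with `α : FN M → FN (M q)`. -/
def NodeActAlpha : Prop :=
  ∀ (M q : ℕ) [NeZero M] [NeZero q] (S : ℕ), M * q ∣ S → ∀ (t : HP) (v : (FN M)ˣ),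
    act (M * q) S t (Units.map ((heckeAlphaBar Kbar M q : FN M →+* FN (M * q)) : FN M →* FN (M * q)) v) =
      Units.map ((heckeAlphaBar Kbar M q : FN M →+* FN (M * q)) : FN M →* FN (M * q)) (act M S t v)

/-- **Node ACT-ONE**: the Hecke polynomials preserve the functions congruent to a constant. -/
def NodeActOne : Prop :=
  ∀ (N q : ℕ) [NeZero N] (S : ℕ), q.Prime → ∀ A : ValuationSubring Qb, A.LiesOverPrime q →
    ∀ (t : HP) (e : (FN N)ˣ), IsRed A (e : FN N) 1 → IsRed A ((act N S t e : (FN N)ˣ) : FN N) 1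

end Fermat.Agent.S43.E0

end
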